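import Fermat.Agent.LocalShafarevich.UnitIndex
import Fermat.Agent.GalCoh.TwistedKummer

/-!
# The cohomology of a `p`-adic field without `p`-th roots of unity

With coefficients `ℤ / p` the second cohomology vanishes by local duality, and the first has order
`p ^ (n + 1)`: it is dual to the first cohomology of the roots of unity, the field modulo `p`-th
powers by Kummer theory.
-/

set_option autoImplicit false
set_option linter.unusedSectionVars false

noncomputable section

namespace FA.LocalShafarevich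

open FA.GalCoh Representation

section Twisted

variable {G : Type} [Group G] {L : Levels G} {Ω : Type} [Field Ω] [MulSemiringAction G Ω]
variable {p : ℕ} [hp : Fact p.Prime] (D : CycloData L Ω p)

theorem kum_eq_zero_iff_twisted (a : fixUM G Ω) :
    D.kum a = 0 ↔ ∃ b : fixUM G Ω, p • b = a := by
  constructor
  · intro h
    obtain ⟨v, hv⟩ := (mk1_eq_zero L (chr D.χ) _).1 h
    refine ⟨⟨D.kroot a.1 - D.eps v, fun g => ?_⟩, Subtype.ext ?_⟩
    · have h1 : D.kc a g = (D.χ g : ZMod p) * v - v := (congrFun hv g).symm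
      have h2 := D.eps_kc a g
      rw [h1, map_sub, ← D.smul_eps] at h2
      rw [smul_sub, ← sub_eq_zero]
      linear_combination (norm := abel) -h2
    · show p • (D.kroot a.1 - D.eps v) = a.1
      rw [smul_sub, D.nsmul_kroot, D.nsmul_eps, sub_zero]
  · rintro ⟨b, rfl⟩
    obtain ⟨j, hj⟩ := D.exists_eps (m := D.kroot (p • b).1 - b.1) (by
      rw [smul_sub, D.nsmul_kroot]
      exact sub_self _)
    refine (mk1_eq_zero L (chr D.χ) _).2 ⟨j, funext fun g => D.eps_injective ?_⟩
    show D.eps ((D.χ g : ZMod p) * j - j) = D.eps (D.kc (p • b) g)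
    rw [map_sub, ← D.smul_eps, hj, D.eps_kc, smul_sub, b.2 g]
    abel

theorem kum_surjective_twisted : Function.Surjective D.kum := by
  intro x
  obtain ⟨f, rfl⟩ := mk1_surjective x
  obtain ⟨w, hw⟩ := D.gal.hilbert90 (e := fun g => D.eps (f.1 g)) (f.2.1.comp D.eps) fun g h => by
    rw [f.2.2, map_add, D.smul_eps]
    rfl
  have hfix : ∀ g : G, g • (p • w) = p • w := fun g => by
    rw [smul_comm, ← sub_eq_zero, ← smul_sub, ← hw, D.nsmul_eps]
  refine ⟨⟨p • w, hfix⟩, ?_⟩
  exact D.kum_eq _ rfl f fun g => hw g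

/-- The data over a subgroup. -/
def subData (H : Subgroup G) : CycloData (L.sub H) Ω p where
  gal := D.gal.sub H
  ζ := D.ζ
  prim := D.prim
  root := D.root
  χ := D.χ.comp H.subtype
  act g := D.act g.1

end Twisted

variable {p : ℕ} [hp : Fact p.Prime]

/-- The cyclotomic data at `p`. -/
abbrev DL (p : ℕ) [Fact p.Prime] : CycloData (LL p) (PadicAlgCl p) p := cycL (p := p) p

/-- The fixed field has no nontrivial `p`-th roots of unity. -/
def NoRoot (H : Subgroup (LG p)) : Prop :=
  ∀ x ∈ IntermediateField.fixedField H, x ^ p = 1 → x = 1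

theorem exists_chi_ne_one {H : Subgroup (LG p)} (hE : NoRoot H) :
    ∃ s ∈ H, (DL p).χ s ≠ 1 := by
  by_contra! hall
  refine (DL p).prim.ne_one hp.out.one_lt (hE _ ?_ (DL p).prim.pow_eq_one)
  exact (IntermediateField.mem_fixedField_iff _ _).2 fun g hg => (DL p).fix_of_ker (hall g hg)

/-- The order of the twisted first cohomology. -/
theorem natCard_H1_chr {H : Subgroup (LG p)} (hH : H ∈ (LL p).carrier) (hE : NoRoot H) :
    Nat.card (H1 ((LL p).sub H) (chr ((DL p).χ.comp H.subtype)))
      = p ^ (Module.finrank ℚ_[p] (IntermediateField.fixedField H) + 1) := by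
  have := finiteDimensional_fixedField hH
  rw [← fieldUM_pow_index_noRoot _ hE, ← fixUM_eq]
  set D := subData (DL p) H
  have hker : D.kumHom.ker =
      ((fixUM H (PadicAlgCl p)).map (nsmulAddMonoidHom p)).addSubgroupOf
        (fixUM H (PadicAlgCl p)) := by
    ext a
    rw [AddMonoidHom.mem_ker, D.kumHom_apply, kum_eq_zero_iff_twisted,
      AddSubgroup.mem_addSubgroupOf]
    exact ⟨fun ⟨b, hb⟩ => ⟨b.1, b.2, congrArg Subtype.val hb⟩,
      fun ⟨b, hb, h⟩ => ⟨⟨b, hb⟩, Subtype.ext h⟩⟩
  rw [AddSubgroup.relIndex, ← hker, AddSubgroup.index_ker,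
    AddMonoidHom.range_eq_top.2 (kum_surjective_twisted D), AddSubgroup.card_top]
  rfl

variable {X : Type} [Fintype X] [MulAction (LG p) X] (T : Trans (LL p) X)

/-- The pairing of `ℤ / p` with the roots of unity on the stabiliser. -/
def unitPair : DPair ((LL p).sub T.H) (T.resχ (DL p).χ) (triv T.H p) (chr (T.resχ (DL p).χ)) where
  β := LinearMap.mul (ZMod p) (ZMod p)
  bil g v w := by
    show v * (((T.resχ (DL p).χ) g : ZMod p) * w) = ((T.resχ (DL p).χ) g : ZMod p) * (v * w)
    rw [mul_left_comm]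
  inj_left a b h := by simpa using LinearMap.congr_fun h 1
  inj_right a b h := by simpa using LinearMap.congr_fun h 1
  fin_left := inferInstance
  fin_right := inferInstance
  smooth_left := smooth_triv
  smooth_right := ((DL p).smooth_chr).comp ((LL p).sub_compat T.H)

theorem subsingleton_H2_trans (hne : ∃ s ∈ T.H, (DL p).χ s ≠ 1) :
    Subsingleton (H2 ((LL p).sub T.H) (triv T.H p)) := by
  have h := local_perfect (DL p) (T.coindPair (unitPair T))
  have hbot : ∀ f : ↥(T.coind (chr (T.resχ (DL p).χ))).invariants, f = 0 := fun f => by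
    obtain ⟨v, rfl⟩ := (T.invEquiv _).symm.surjective f
    obtain ⟨s, hs, hs1⟩ := hne
    have hv : ((DL p).χ s : ZMod p) * v.1 = v.1 := v.2 ⟨s, hs⟩
    have h0 : v.1 = 0 := by
      by_contra h0
      exact hs1 (Units.ext (by
        rw [Units.val_one]
        exact mul_right_cancel₀ h0 (hv.trans (one_mul _).symm)))
    rw [show v = 0 from Subtype.ext h0, map_zero]
  have hs : Subsingleton (H2 (LL p) (T.coind (triv T.H p))) := ⟨fun a b =>
    h.bij20.1 (LinearMap.ext fun f => by rw [hbot f, map_zero, map_zero])⟩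
  exact (T.sh2_surjective (σ := triv T.H p)).subsingleton

theorem natCard_H1_trans :
    Module.Finite (ZMod p) (H1 ((LL p).sub T.H) (triv T.H p)) ∧
      Nat.card (H1 ((LL p).sub T.H) (triv T.H p))
        = Nat.card (H1 ((LL p).sub T.H) (chr (T.resχ (DL p).χ))) := by
  have h := local_perfect (DL p) (T.coindPair (unitPair T))
  have hf := h.fin1
  have hf' := h.fin1'
  have : Module.Finite (ZMod p) (H1 ((LL p).sub T.H) (triv T.H p)) :=
    Module.Finite.equiv (T.shEquiv1 (triv T.H p))
  have : Module.Finite (ZMod p) (H1 ((LL p).sub T.H) (chr (T.resχ (DL p).χ))) :=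
    Module.Finite.equiv (T.shEquiv1 (chr (T.resχ (DL p).χ)))
  refine ⟨inferInstance, ?_⟩
  rw [Module.natCard_eq_pow_finrank (K := ZMod p), Module.natCard_eq_pow_finrank (K := ZMod p)
    (V := H1 ((LL p).sub T.H) (chr (T.resχ (DL p).χ))), ← (T.shEquiv1 (triv T.H p)).finrank_eq,
    ← (T.shEquiv1 (chr (T.resχ (DL p).χ))).finrank_eq,
    (LinearEquiv.ofBijective _ h.bij11).finrank_eq,
    Subspace.dual_finrank_eq]

/-- **The two cohomology groups of a level without roots of unity.** -/
theorem cohomology_noRoot {H : Subgroup (LG p)} (hH : H ∈ (LL p).carrier) (hE : NoRoot H) :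
    Subsingleton (H2 ((LL p).sub H) (triv H p)) ∧
      Module.Finite (ZMod p) (H1 ((LL p).sub H) (triv H p)) ∧
      Nat.card (H1 ((LL p).sub H) (triv H p))
        = p ^ (Module.finrank ℚ_[p] (IntermediateField.fixedField H) + 1) := by
  classical
  obtain ⟨N, hN, hle, hn⟩ := (LL p).exists_normal hH
  have := (LL p).finiteIndex hH
  have : Fintype (LG p ⧸ H) := Fintype.ofFinite _
  obtain ⟨T, hT⟩ : ∃ T : Trans (LL p) (LG p ⧸ H), T.H = H :=
    ⟨cosetTrans (LL p) H hN hn hle, Trans.mem_H_of_cosetTrans hN hn hle⟩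
  have h1 : Subsingleton (H2 ((LL p).sub T.H) (triv T.H p)) :=
    subsingleton_H2_trans T (by
      obtain ⟨s, hs, h⟩ := exists_chi_ne_one hE
      exact ⟨s, hT.ge hs, h⟩)
  obtain ⟨h2, h3⟩ := natCard_H1_trans T
  rw [natCard_H1_chr (by rw [hT]; exact hH) (by rw [hT]; exact hE)] at h3
  generalize hH' : T.H = H' at h1 h2 h3
  obtain rfl : H' = H := hH'.symm.trans hT
  exact ⟨h1, h2, h3⟩

end FA.LocalShafarevich

end
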