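import Fermat.Agent.ScholzReichardt.LocalPGroups

/-!
# Groups with free maximal pro-`p` quotient

If the second cohomology with coefficients `ℤ / p` vanishes and the first has order `p ^ d`, some
`d` elements go to any `d` given elements of any finite `p`-group under exactly one continuous
homomorphism.
-/

set_option autoImplicit false
set_option linter.unusedSectionVars false

noncomputable section

namespace FA.LocalShafarevich

open FA.GalCoh Fermat.Agent.ScholzReichardt
open scoped Classical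

variable {Γ : Type} [Group Γ] {L : Levels Γ} {p : ℕ} [hp : Fact p.Prime] {d : ℕ}

variable (L p) in
/-- A family dual to the characters of order `p`. -/
def IsFreeFamily (g : Fin d → Γ) : Prop :=
  (∀ χ : Γ → ZMod p, (∀ a b, χ (a * b) = χ a + χ b) → LC₁ L χ → (∀ i, χ (g i) = 0) → ∀ τ, χ τ = 0) ∧
    ∀ u : Fin d → ZMod p, ∃ χ : Γ → ZMod p, (∀ a b, χ (a * b) = χ a + χ b) ∧ LC₁ L χ ∧
      ∀ i, χ (g i) = u i

theorem z1_add (f : ↥(Z1 L (triv Γ p))) (a b : Γ) : f.1 (a * b) = f.1 a + f.1 b := by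
  rw [f.2.2 a b, add_comm]; rfl

/-- Such a family exists. -/
theorem exists_isFreeFamily [Module.Finite (ZMod p) (H1 L (triv Γ p))]
    (hd : Nat.card (H1 L (triv Γ p)) = p ^ d) : ∃ g : Fin d → Γ, IsFreeFamily L p g := by
  let e : ↥(Z1 L (triv Γ p)) ≃ₗ[ZMod p] H1 L (triv Γ p) :=
    LinearEquiv.ofBijective _ ⟨mk1_triv_injective, mk1_surjective⟩
  have : Module.Finite (ZMod p) ↥(Z1 L (triv Γ p)) := Module.Finite.equiv e.symm
  have hdim : Module.finrank (ZMod p) ↥(Z1 L (triv Γ p)) = d := by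
    rw [e.finrank_eq]
    rw [Module.natCard_eq_pow_finrank (K := ZMod p), Nat.card_zmod] at hd
    exact Nat.pow_right_injective hp.out.two_le hd
  let ev : Γ → Module.Dual (ZMod p) ↥(Z1 L (triv Γ p)) := fun g =>
    { toFun := fun f => f.1 g
      map_add' := fun _ _ => rfl
      map_smul' := fun _ _ => rfl }
  have htop : Submodule.span (ZMod p) (Set.range ev) = ⊤ := by
    have hco : (Submodule.span (ZMod p) (Set.range ev)).dualCoannihilator = ⊥ := by
      refine eq_bot_iff.2 fun f hf => Subtype.ext (funext fun g => ?_)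
      exact (Submodule.mem_dualCoannihilator f).1 hf _ (Submodule.subset_span ⟨g, rfl⟩)
    rw [← Subspace.dualCoannihilator_dualAnnihilator_eq
      (W := Submodule.span (ZMod p) (Set.range ev)), hco, Submodule.dualAnnihilator_bot]
  obtain ⟨f, hf, hspan, -⟩ := Submodule.exists_fun_fin_finrank_span_eq (ZMod p) (Set.range ev)
  have hr : Module.finrank (ZMod p) (Submodule.span (ZMod p) (Set.range ev)) = d := by
    rw [htop, finrank_top, Subspace.dual_finrank_eq, hdim]
  choose γ hγ using hf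
  let g : Fin d → Γ := fun i => γ (Fin.cast hr.symm i)
  let res : ↥(Z1 L (triv Γ p)) →ₗ[ZMod p] Fin d → ZMod p := LinearMap.pi fun i => ev (g i)
  have hinj : Function.Injective res := (injective_iff_map_eq_zero _).2 fun z hz =>
    Subtype.ext (funext fun τ => by
      have hle : Submodule.span (ZMod p) (Set.range f) ≤
          LinearMap.ker (Module.Dual.eval (ZMod p) _ z) := Submodule.span_le.2 (by
        rintro _ ⟨i, rfl⟩
        have h1 : ev (g (Fin.cast hr i)) z = 0 := congrFun hz (Fin.cast hr i)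
        rw [← hγ i]
        exact LinearMap.mem_ker.2 h1)
      rw [hspan] at hle
      exact LinearMap.mem_ker.1 (hle (Submodule.subset_span ⟨τ, rfl⟩)))
  have hsurj : Function.Surjective res :=
    (LinearMap.injective_iff_surjective_of_finrank_eq_finrank (by
      rw [hdim, Module.finrank_fintype_fun_eq_card, Fintype.card_fin])).1 hinj
  refine ⟨g, fun χ hχ hlc h0 τ => ?_, fun u => ?_⟩
  · let z : ↥(Z1 L (triv Γ p)) := ⟨χ, hlc, fun a b => by rw [hχ, add_comm]; rfl⟩
    have hz : z = 0 := hinj (by rw [map_zero]; exact funext h0)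
    exact congrFun (congrArg Subtype.val hz) τ
  · obtain ⟨z, hz⟩ := hsurj u
    exact ⟨z.1, z1_add z, z.2.1, fun i => congrFun hz i⟩

variable {g : Fin d → Γ}

/-- A surjection onto a `p`-group sends the family to generators. -/
theorem IsFreeFamily.closure_eq_top (hB : IsFreeFamily L p g) {P : Type*} [Group P] [Finite P]
    (hP : IsPGroup p P) (ρ : Γ →* P) (hlc : LC₁ L ρ) (hρ : Function.Surjective ρ) :
    Subgroup.closure (Set.range fun i => ρ (g i)) = ⊤ := by
  by_contra hne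
  obtain ⟨χ, hχ, hχ0, x, hx⟩ := exists_char_of_ne_top hP hne
  obtain ⟨τ, rfl⟩ := hρ x
  exact hx (hB.1 (fun τ => χ (ρ τ)) (fun a b => by rw [map_mul, hχ]) (hlc.comp χ)
    (fun i => hχ0 _ (Subgroup.subset_closure ⟨i, rfl⟩)) τ)

/-- The homomorphism is unique. -/
theorem IsFreeFamily.hom_ext (hB : IsFreeFamily L p g) {P : Type*} [Group P] [Finite P]
    (hP : IsPGroup p P) {ρ ρ' : Γ →* P} (h : LC₁ L ρ) (h' : LC₁ L ρ')
    (hg : ∀ i, ρ (g i) = ρ' (g i)) : ρ = ρ' := by
  have hPP : IsPGroup p (P × P) := fun z => by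
    obtain ⟨a, ha⟩ := hP z.1
    obtain ⟨b, hb⟩ := hP z.2
    refine ⟨a + b, Prod.ext ?_ ?_⟩
    · show z.1 ^ p ^ (a + b) = 1
      rw [pow_add, pow_mul, ha, one_pow]
    · show z.2 ^ p ^ (a + b) = 1
      rw [pow_add, mul_comm, pow_mul, hb, one_pow]
  let K := (ρ.prod ρ').range
  let σ : Γ →* K := (ρ.prod ρ').rangeRestrict
  have hσlc : LC₁ L σ := by
    obtain ⟨M, hM, hMs⟩ := h.map₂ h' fun a b => (a, b)
    exact ⟨M, hM, fun g s hs => Subtype.ext (hMs g s hs)⟩
  have htop := hB.closure_eq_top (hPP.to_subgroup K) σ hσlc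
    (MonoidHom.rangeRestrict_surjective _)
  let d₁ : K →* P := (MonoidHom.fst P P).comp K.subtype
  let d₂ : K →* P := (MonoidHom.snd P P).comp K.subtype
  have hle : (⊤ : Subgroup K) ≤ d₁.eqLocus d₂ := htop ▸ (Subgroup.closure_le _).2 (by
    rintro _ ⟨i, rfl⟩
    exact hg i)
  exact MonoidHom.ext fun τ => hle (Subgroup.mem_top (σ τ))

/-- Any tuple in a `p`-group is the image of the family. -/
theorem IsFreeFamily.exists_hom (hB : IsFreeFamily L p g) [Subsingleton (H2 L (triv Γ p))]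
    {P : Type*} [Group P] {n : ℕ} (hn : Nat.card P = p ^ n) (x : Fin d → P) :
    ∃ ρ : Γ →* P, LC₁ L ρ ∧ ∀ i, ρ (g i) = x i := by
  induction n generalizing P with
  | zero =>
    have : Subsingleton P := (Nat.card_eq_one_iff_unique.1 (hn.trans (pow_zero p))).1
    exact ⟨1, ⟨⊤, L.top_mem, fun _ _ _ => rfl⟩, fun i => Subsingleton.elim _ _⟩
  | succ n ih =>
    have : Finite P := Nat.finite_of_card_ne_zero (hn ▸ pow_ne_zero _ hp.out.ne_zero)
    have : Nontrivial P := Finite.one_lt_card_iff_nontrivial.1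
      (hn ▸ Nat.one_lt_pow n.succ_ne_zero hp.out.one_lt)
    obtain ⟨H, hH, D, hHc, hπ⟩ := exists_cExt_quotient (IsPGroup.of_card hn)
    obtain ⟨f, hf, hfg⟩ := ih (P := P ⧸ H) (by
      have h := H.card_eq_card_quotient_mul_card_subgroup
      rw [hHc, hn, pow_succ] at h
      exact (Nat.eq_of_mul_eq_mul_right hp.out.pos h).symm) (fun i => D.π (x i))
    obtain ⟨β, hβ, hlift⟩ := exists_lift_of_subsingleton D hf
    choose a ha using fun i => D.exists_ja (e := (β (g i))⁻¹ * x i)
      (by rw [map_mul, map_inv, hlift, hfg, inv_mul_cancel])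
    obtain ⟨χ, hχ, hχlc, hχg⟩ := hB.2 a
    exact ⟨D.twist β χ hχ, D.twist_lc hβ hχ hχlc,
      fun i => by rw [D.twist_apply, hχg, ha, mul_inv_cancel_left]⟩

/-- **Tuples and homomorphisms correspond.** -/
theorem IsFreeFamily.existsUnique_hom (hB : IsFreeFamily L p g) [Subsingleton (H2 L (triv Γ p))]
    {P : Type*} [Group P] [Finite P] (hP : IsPGroup p P) (x : Fin d → P) :
    ∃! ρ : Γ →* P, LC₁ L ρ ∧ ∀ i, ρ (g i) = x i := by
  obtain ⟨n, hn⟩ := IsPGroup.iff_card.1 hP
  obtain ⟨ρ, hlc, hρ⟩ := hB.exists_hom hn x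
  exact ⟨ρ, ⟨hlc, hρ⟩, fun ρ' ⟨h', hρ'⟩ =>
    hB.hom_ext hP h' hlc fun i => (hρ' i).trans (hρ i).symm⟩

/-- **Quotients that are `p`-groups are the groups with `d` generators.** -/
theorem IsFreeFamily.exists_surjective_iff (hB : IsFreeFamily L p g)
    [Subsingleton (H2 L (triv Γ p))] {P : Type*} [Group P] [Finite P] (hP : IsPGroup p P) :
    (∃ ρ : Γ →* P, LC₁ L ρ ∧ Function.Surjective ρ) ↔
      ∃ x : Fin d → P, Subgroup.closure (Set.range x) = ⊤ := by
  constructor
  · rintro ⟨ρ, hlc, hρ⟩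
    exact ⟨fun i => ρ (g i), hB.closure_eq_top hP ρ hlc hρ⟩
  · rintro ⟨x, hx⟩
    obtain ⟨ρ, ⟨hlc, hρ⟩, -⟩ := hB.existsUnique_hom hP x
    refine ⟨ρ, hlc, MonoidHom.range_eq_top.1 (eq_top_iff.2 ?_)⟩
    rw [← hx, Subgroup.closure_le]
    rintro _ ⟨i, rfl⟩
    exact ⟨g i, hρ i⟩

end FA.LocalShafarevich

end
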