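import Fermat.Agent.LocalShafarevich.Cohomology
import Fermat.Agent.LocalShafarevich.Free
import Fermat.Agent.ScholzReichardt.NumberFields

/-!
# The Galois group of a `p`-adic field without `p`-th roots of unity

The free family of the level belonging to a finite extension `E` of `ℚ_p` is moved to the group of
automorphisms of the algebraic closure over `E`.
-/

set_option autoImplicit false
set_option linter.unusedSectionVars false

noncomputable section

namespace FA.LocalShafarevich

open FA.GalCoh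

variable {p : ℕ} [hp : Fact p.Prime] (E : IntermediateField ℚ_[p] (PadicAlgCl p))

/-- The isomorphism of the fixing subgroup with the Galois group over the field. -/
def galE : E.fixingSubgroup ≃* (PadicAlgCl p ≃ₐ[E] PadicAlgCl p) :=
  IntermediateField.fixingSubgroupEquiv E

theorem galE_apply (s : E.fixingSubgroup) (x : PadicAlgCl p) : galE E s x = (s : LG p) x := rfl

variable [FiniteDimensional ℚ_[p] E]

/-- Open kernels over `E` are the homomorphisms constant on cosets of a level. -/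
theorem lc_comp_galE_iff {P : Type*} [Group P] (ρ : (PadicAlgCl p ≃ₐ[E] PadicAlgCl p) →* P) :
    LC₁ ((LL p).sub E.fixingSubgroup) (ρ.comp (galE E).toMonoidHom) ↔
      IsOpen (ρ.ker : Set (PadicAlgCl p ≃ₐ[E] PadicAlgCl p)) := by
  constructor
  · rintro ⟨_, ⟨N, ⟨F, hF, hFN⟩, rfl⟩, hs⟩
    let E' : IntermediateField E (PadicAlgCl p) :=
      IntermediateField.extendScalars (le_sup_left : E ≤ E ⊔ F)
    have hEQ : FiniteDimensional ℚ_[p] E' :=
      (inferInstance : FiniteDimensional ℚ_[p] (E ⊔ F : IntermediateField ℚ_[p] (PadicAlgCl p)))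
    have : FiniteDimensional E E' := Module.Finite.of_restrictScalars_finite ℚ_[p] E E'
    refine Subgroup.isOpen_mono (fun σ hσ => MonoidHom.mem_ker.2 ?_)
      (IntermediateField.fixingSubgroup_isOpen E')
    obtain ⟨s, rfl⟩ := (galE E).surjective σ
    have hmem : (s : LG p) ∈ N :=
      hFN ((IntermediateField.mem_fixingSubgroup_iff _ _).2 fun x hx =>
        (IntermediateField.mem_fixingSubgroup_iff E' _).1 hσ x ((le_sup_right : F ≤ E ⊔ F) hx))
    have h := hs 1 s (Subgroup.mem_subgroupOf.2 hmem)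
    rwa [one_mul, map_one] at h
  · intro h
    obtain ⟨E', hE', hle⟩ :=
      (krullTopology_mem_nhds_one_iff _ _ _).1 (h.mem_nhds ρ.ker.one_mem)
    have : FiniteDimensional ℚ_[p] E' := Module.Finite.trans E E'
    refine ⟨_, ⟨(E'.restrictScalars ℚ_[p]).fixingSubgroup,
      ⟨_, this, le_rfl⟩, rfl⟩, fun a s hs => ?_⟩
    have hk : galE E s ∈ ρ.ker :=
      hle ((IntermediateField.mem_fixingSubgroup_iff E' _).2 fun x hx =>
        (IntermediateField.mem_fixingSubgroup_iff _ _).1 (Subgroup.mem_subgroupOf.1 hs) x hx)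
    show ρ (galE E (a * s)) = ρ (galE E a)
    rw [map_mul, map_mul, MonoidHom.mem_ker.1 hk, mul_one]

/-- The level has a free family and no second cohomology. -/
theorem exists_family (hμ : ∀ x ∈ E, x ^ p = 1 → x = 1) :
    Subsingleton (H2 ((LL p).sub E.fixingSubgroup) (triv E.fixingSubgroup p)) ∧
      ∃ g : Fin (Module.finrank ℚ_[p] E + 1) → E.fixingSubgroup,
        IsFreeFamily ((LL p).sub E.fixingSubgroup) p g := by
  have hfix : IntermediateField.fixedField E.fixingSubgroup = E :=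
    InfiniteGalois.fixedField_fixingSubgroup E
  obtain ⟨h2, h1, hc⟩ := cohomology_noRoot (p := p) (fixingSubgroup_mem_fieldLevels E)
    (fun x hx => hμ x (hfix.le hx))
  rw [hfix] at hc
  exact ⟨h2, exists_isFreeFamily hc⟩

/-- **Shafarevich's theorem**: some `n + 1` automorphisms over `E` go to any `n + 1` elements of a
finite `p`-group under exactly one homomorphism with open kernel. -/
theorem exists_free_generators (hμ : ∀ x ∈ E, x ^ p = 1 → x = 1) :
    ∃ g : Fin (Module.finrank ℚ_[p] E + 1) → (PadicAlgCl p ≃ₐ[E] PadicAlgCl p),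
      ∀ (P : Type*) [Group P] [Finite P], IsPGroup p P → ∀ x : Fin _ → P,
        ∃! ρ : (PadicAlgCl p ≃ₐ[E] PadicAlgCl p) →* P,
          IsOpen (ρ.ker : Set (PadicAlgCl p ≃ₐ[E] PadicAlgCl p)) ∧ ∀ i, ρ (g i) = x i := by
  obtain ⟨h2, g, hg⟩ := exists_family E hμ
  refine ⟨fun i => galE E (g i), fun P _ _ hP x => ?_⟩
  obtain ⟨σ, ⟨hlc, hσ⟩, huniq⟩ := hg.existsUnique_hom hP x
  have hcomp : (σ.comp (galE E).symm.toMonoidHom).comp (galE E).toMonoidHom = σ :=
    MonoidHom.ext fun s => congrArg σ ((galE E).symm_apply_apply s)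
  refine ⟨σ.comp (galE E).symm.toMonoidHom, ⟨(lc_comp_galE_iff E _).1 (by rw [hcomp]; exact hlc),
    fun i => (congrArg σ ((galE E).symm_apply_apply (g i))).trans (hσ i)⟩, ?_⟩
  rintro ρ ⟨hopen, hρ⟩
  rw [← huniq (ρ.comp (galE E).toMonoidHom) ⟨(lc_comp_galE_iff E ρ).2 hopen, hρ⟩]
  exact MonoidHom.ext fun s => (congrArg ρ ((galE E).apply_symm_apply s)).symm

/-- The homomorphisms to a finite `p`-group number `|P| ^ (n + 1)`. -/
theorem natCard_homs (hμ : ∀ x ∈ E, x ^ p = 1 → x = 1) (P : Type*) [Group P] [Finite P]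
    (hP : IsPGroup p P) :
    Nat.card {ρ : (PadicAlgCl p ≃ₐ[E] PadicAlgCl p) →* P //
        IsOpen (ρ.ker : Set (PadicAlgCl p ≃ₐ[E] PadicAlgCl p))}
      = Nat.card P ^ (Module.finrank ℚ_[p] E + 1) := by
  obtain ⟨g, hg⟩ := exists_free_generators.{_} E hμ
  rw [Nat.card_congr (Equiv.ofBijective
      (fun ρ : {ρ : (PadicAlgCl p ≃ₐ[E] PadicAlgCl p) →* P //
        IsOpen (ρ.ker : Set (PadicAlgCl p ≃ₐ[E] PadicAlgCl p))} => fun i => ρ.1 (g i))
      ⟨fun a b hab => Subtype.ext ((hg P hP _).unique ⟨a.2, fun i => rfl⟩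
        ⟨b.2, fun i => (congrFun hab i).symm⟩), fun x => ?_⟩), Nat.card_fun, Nat.card_fin]
  obtain ⟨ρ, ⟨ho, hρ⟩, -⟩ := hg P hP x
  exact ⟨⟨ρ, ho⟩, funext hρ⟩

/-- A finite `p`-group is a Galois group over `E` iff `n + 1` elements generate it. -/
theorem galois_over_iff (hμ : ∀ x ∈ E, x ^ p = 1 → x = 1) (P : Type*) [Group P] [Finite P]
    (hP : IsPGroup p P) :
    (∃ M : IntermediateField E (PadicAlgCl p), FiniteDimensional E M ∧ IsGalois E M ∧
        Nonempty ((M ≃ₐ[E] M) ≃* P)) ↔
      ∃ x : Fin (Module.finrank ℚ_[p] E + 1) → P, Subgroup.closure (Set.range x) = ⊤ := by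
  have : IsGalois E (PadicAlgCl p) := IsGalois.tower_top_of_isGalois ℚ_[p] E (PadicAlgCl p)
  obtain ⟨h2, g, hg⟩ := exists_family E hμ
  rw [← hg.exists_surjective_iff hP]
  constructor
  · rintro ⟨M, hM, hgal, ⟨e⟩⟩
    let ρ : (PadicAlgCl p ≃ₐ[E] PadicAlgCl p) →* P :=
      e.toMonoidHom.comp (AlgEquiv.restrictNormalHom M)
    have hopen : IsOpen (ρ.ker : Set (PadicAlgCl p ≃ₐ[E] PadicAlgCl p)) := by
      refine Subgroup.isOpen_mono (H₁ := M.fixingSubgroup) (fun σ hσ => ?_)
        (IntermediateField.fixingSubgroup_isOpen M)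
      rw [MonoidHom.mem_ker]
      show e (AlgEquiv.restrictNormalHom M σ) = 1
      rw [show AlgEquiv.restrictNormalHom M σ = 1 from MonoidHom.mem_ker.1
        (by rw [IntermediateField.restrictNormalHom_ker]; exact hσ), map_one]
    exact ⟨ρ.comp (galE E).toMonoidHom, (lc_comp_galE_iff E ρ).2 hopen,
      (e.surjective.comp (AlgEquiv.restrictNormalHom_surjective (F := E) (K₁ := M)
        (PadicAlgCl p))).comp (galE E).surjective⟩
  · rintro ⟨σ, hlc, hσ⟩
    refine Fermat.Agent.ScholzReichardt.exists_field_of_surjective_over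
      (σ.comp (galE E).symm.toMonoidHom) (hσ.comp (galE E).symm.surjective)
      ((lc_comp_galE_iff E _).1 ?_)
    rwa [show (σ.comp (galE E).symm.toMonoidHom).comp (galE E).toMonoidHom = σ from
      MonoidHom.ext fun s => congrArg σ ((galE E).symm_apply_apply s)]

end FA.LocalShafarevich

end
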