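import Fermat.Agent.GalCoh.LocalNorm

/-!
# The `p`-th powers in a `p`-adic field without `p`-th roots of unity

In a finite extension of `ℚ_p` of degree `n` without nontrivial `p`-th roots of unity the `p`-th
powers have index `p ^ (n + 1)` in the nonzero elements.
-/

set_option autoImplicit false
set_option linter.unusedSectionVars false

noncomputable section

namespace FA.LocalShafarevich

open FA.GalCoh

variable {p : ℕ} [hp : Fact p.Prime] (E : IntermediateField ℚ_[p] (PadicAlgCl p))
  [FiniteDimensional ℚ_[p] E]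

/-- The index of the `p`-th powers of the units. -/
theorem unitsOf_pow_index_noRoot (hE : ∀ x ∈ E, x ^ p = 1 → x = 1) :
    ((unitsOf E).map (nsmulAddMonoidHom p)).relIndex (unitsOf E)
      = p ^ Module.finrank ℚ_[p] E := by
  classical
  obtain ⟨k, hk3⟩ : ∃ k : ℕ, k = 3 := ⟨3, rfl⟩
  have hk : 1 ≤ k := by omega
  set U := unitsOf E
  set H := unitLvl (ringLat E) k (one_le_ringLat E hk)
  have hHU : H ≤ U := unitLvl_le_unitsOf _
  have hfin : H.relIndex U ≠ 0 := relIndex_unitLvl_ne_zero _ _
  set f : UM (PadicAlgCl p) →+ UM (PadicAlgCl p) := nsmulAddMonoidHom p with hf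
  have hfv : ∀ m, (f m).val = m.val ^ p := fun m => UM.val_nsmul p m
  -- no torsion
  have hUk : U ⊓ f.ker = ⊥ := eq_bot_iff.2 fun m hm => by
    refine AddSubgroup.mem_bot.2 (UM.ext ?_)
    rw [UM.val_zero]
    exact hE _ hm.1.1 (by rw [← hfv, AddMonoidHom.mem_ker.1 hm.2, UM.val_zero])
  have hHk : H ⊓ f.ker = ⊥ := eq_bot_iff.2 ((inf_le_inf_right _ hHU).trans hUk.le)
  -- the small units
  have hHH : H.map f ≤ H := by
    rintro _ ⟨m, hm, rfl⟩
    exact nsmul_mem hm p
  have hH : (H.map f).relIndex H = p ^ Module.finrank ℚ_[p] E := by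
    have e : H.map f = unitLvl (ringLat E) (k + 1) (one_le_ringLat E (Nat.le_succ_of_le hk)) := by
      refine le_antisymm ?_ ?_
      · rintro _ ⟨m, hm, rfl⟩
        rw [mem_unitLvl, hfv, mem_ringLat_lvl]
        have hm' := (mem_ringLat_lvl E).1 hm
        set y := m.val - 1 with hy
        have hmy : m.val = 1 + y := by rw [hy]; ring
        refine ⟨sub_mem (pow_mem (by rw [hmy]; exact add_mem (one_mem E) hm'.1) _) (one_mem E), ?_⟩
        rw [hmy, show (1 + y) ^ p - 1 = ((1 + y) ^ p - 1 - p * y) + p * y by ring]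
        refine norm_add_le_of_le ((norm_pow_expansion
          (hm'.2.trans (pow_le_one₀ (norm_nonneg _) norm_q_lt_one.le)) p).trans ?_) ?_
        · refine (pow_le_pow_left₀ (norm_nonneg _) hm'.2 2).trans ?_
          rw [← pow_mul]
          exact pow_le_pow_of_le_one (norm_nonneg _) norm_q_lt_one.le (by omega)
        · rw [norm_mul, pow_succ']
          exact mul_le_mul_of_nonneg_left hm'.2 (norm_nonneg _)
      · refine le_trans (le_inf le_rfl le_top) (unitLvl_le_map (one_le_ringLat E hk) f (· ^ p) hfv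
          (fun x _ => (continuous_pow p).continuousAt) ⊤ (k + 1)
          (one_le_ringLat E (Nat.le_succ_of_le hk)) (fun _ _ => trivial) fun j hj u hu _ => ?_)
        have hu' := (mem_ringLat_lvl E).1 hu
        set y := (u.val - 1) / (p : PadicAlgCl p) with hy
        have hyn : ‖y‖ ≤ ‖(p : PadicAlgCl p)‖ ^ (j - 1) := by
          rw [hy, norm_div, div_le_iff₀ norm_q_pos, ← pow_succ, Nat.sub_add_cancel (by omega)]
          exact hu'.2
        have hylt : ‖y‖ < 1 :=
          lt_of_le_of_lt hyn (pow_lt_one₀ (norm_nonneg _) norm_q_lt_one (by omega))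
        have hne : 1 + y ≠ 0 := fun h => by simpa [h] using norm_one_add hylt
        refine ⟨UM.mk _ hne, ?_, ?_⟩
        · rw [mem_unitLvl, UM.val_mk, add_sub_cancel_left, mem_ringLat_lvl]
          exact ⟨div_mem hu'.1 (natCast_mem E p),
            hyn.trans (pow_le_pow_of_le_one (norm_nonneg _) norm_q_lt_one.le (by omega))⟩
        · have huE : u.val ∈ E := (norm_of_mem_unitLvl hu).2
          rw [mem_unitLvl, mem_ringLat_lvl, UM.val_sub, hfv, UM.val_mk]
          refine ⟨sub_mem (div_mem huE (pow_mem (add_mem (one_mem E)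
            (div_mem hu'.1 (natCast_mem E p))) _)) (one_mem E), ?_⟩
          refine (pow_estimate (p := p) rfl hylt.le (norm_one_add hylt) (by
            rw [hy, mul_div_cancel₀ _ q_ne_zero]; ring)).trans ?_
          refine (pow_le_pow_left₀ (norm_nonneg _) hyn 2).trans ?_
          rw [← pow_mul]
          exact pow_le_pow_of_le_one (norm_nonneg _) norm_q_lt_one.le (by omega)
    rw [e]
    exact relIndex_unitLvl_succ E hk
  -- the index identity
  have h1 := relIndex_map_ker f hHU
  rw [hHk, hUk, AddSubgroup.relIndex_self, mul_one] at h1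
  have hUU : U.map f ≤ U := by
    rintro _ ⟨m, hm, rfl⟩
    exact nsmul_mem hm p
  have h2 : (H.map f).relIndex U = (H.map f).relIndex (U.map f) * (U.map f).relIndex U :=
    (AddSubgroup.relIndex_mul_relIndex _ _ _ (AddSubgroup.map_mono hHU) hUU).symm
  have h3 : (H.map f).relIndex U = (H.map f).relIndex H * H.relIndex U :=
    (AddSubgroup.relIndex_mul_relIndex _ _ _ hHH hHU).symm
  rw [h2, hH, h1, mul_comm] at h3
  exact Nat.eq_of_mul_eq_mul_right (Nat.pos_of_ne_zero hfin) h3

/-- **The index of the `p`-th powers.** -/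
theorem fieldUM_pow_index_noRoot (hE : ∀ x ∈ E, x ^ p = 1 → x = 1) :
    ((fieldUM E).map (nsmulAddMonoidHom p)).relIndex (fieldUM E)
      = p ^ (Module.finrank ℚ_[p] E + 1) := by
  obtain ⟨π, hπ, h0, h1, hF⟩ := exists_unifUM E
  rw [hF, AddSubgroup.map_sup, AddMonoidHom.map_zmultiples,
    relIndex_sup_zmultiples (U := unitsOf E) ?_ (free_of_norm E h0 h1) (zero_mem _)
      (d := p) (Nat.cast_ne_zero.2 hp.out.ne_zero) (by simp), unitsOf_pow_index_noRoot E hE,
    Int.natAbs_natCast]
  · ring
  · rintro _ ⟨m, hm, rfl⟩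
    exact nsmul_mem hm p

end FA.LocalShafarevich

end
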